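import Fermat.Agent.S42x.Root.H9_Inv
import Fermat.Agent.S42x.Kum.H21_Fun
import Fermat.Agent.S24.H11_PointPlace

/-!
# W7 (B2') [ROOT] (helper9), part 6: finiteness of the `p`-Selmer classes of `F_ℂ`

* `h9_F1`                  : the membership criterion (helper21's (F1));
* `h9_invariant_root_mem`  : **(R7)**, hypothesis-free;
* `h9_dvd_ordE`            : `p ∣ ord_v g` at every place implies `p ∣ ord_z (ι g)` at every
  point `z` of the upper half plane;
* `h9_exists_root_char`    : such a `g` has a `p`-th root in `MerH`, with a character;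
* `h9_selmer_finite`       : **finiteness**: the functions `g ∈ F_ℂ^×` with `p ∣ div g` form
  finitely many classes modulo `p`-th powers.
-/

set_option autoImplicit false
set_option linter.unusedSectionVars false

open UpperHalfPlane CongruenceSubgroup AlgebraicCurve
open scoped Manifold MatrixGroups Topology
open Fermat.Agent.S24.Mer Fermat.Agent.S24.Real

namespace Fermat.Agent.S42x.Root.H9

/-- The membership criterion (helper21's (F1)). -/
theorem h9_F1 (N : ℕ) [NeZero N] : H9F1 N := fun F₀ hinv n hbdd =>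
  Fermat.Agent.S42x.Kum.H21.h21_mem_funField N F₀ hinv n hbdd

/-- **(R7)** a `Γ₀(N)`-invariant `p`-th root in `MerH` of a modular function is a modular
function. -/
theorem h9_invariant_root_mem (N : ℕ) [NeZero N] (p : ℕ) (hp : p ≠ 0)
    (f : FK ℂ N) (y : MerH) (hyf : y ^ p = iota (RingHom.id ℂ) f)
    (hinv : ∀ γ ∈ Gamma0 N, tauE γ y = y) : ∃ h : FK ℂ N, iota (RingHom.id ℂ) h = y :=
  h9_invariant_root_mem_of N (h9_F1 N) p hp f y hyf hinv

/-- Divisibility of the orders at all places implies divisibility of the orders at all points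
of the upper half plane. -/
theorem h9_dvd_ordE (N : ℕ) (p : ℕ) (g : FK ℂ N) (hg : g ≠ 0)
    (hdiv : ∀ v : Place ℂ (FK ℂ N), (p : ℤ) ∣ v.ord g) (z : ℍ) :
    (p : ℤ) ∣ ordE z (iota (RingHom.id ℂ) g) := by
  obtain ⟨v, m, -, hv⟩ := Fermat.Agent.S24.PP.pointPlaces N z
  obtain ⟨a, b, hb, hab⟩ := exists_frac g
  have ha : a ≠ 0 := by
    rintro rfl
    rw [map_zero] at hab
    rcases mul_eq_zero.mp hab with h | h
    · exact hg h
    · exact hb (inclAK_injective ℂ N (by rw [h, map_zero]))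
  have h := hv a b g ha hb hab
  rw [iota_eq_div _ g a b hb hab,
    ordE_div z (rhoH_ne_zero _ ha) (rhoH_ne_zero _ hb)]
  have e : (ordN z (rhoH (RingHom.id ℂ) a) : ℤ) - (ordN z (rhoH (RingHom.id ℂ) b) : ℤ) =
      (m : ℤ) * v.ord g := h.symm
  rw [e]
  exact Dvd.dvd.mul_left (hdiv v) _

/-- A modular function whose divisor is divisible by `p` has a `p`-th root in `MerH`, and the
root transforms under `Γ₀(N)` by a character of exponent `p`. -/
theorem h9_exists_root_char (N : ℕ) (p : ℕ) (hp : p ≠ 0) (g : FK ℂ N) (hg : g ≠ 0)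
    (hdiv : ∀ v : Place ℂ (FK ℂ N), (p : ℤ) ∣ v.ord g) :
    ∃ (y : MerH) (χ : Gamma0 N →* ℂˣ), y ≠ 0 ∧ y ^ p = iota (RingHom.id ℂ) g ∧
      (∀ γ, χ γ ^ p = 1) ∧
      ∀ γ : Gamma0 N, tauE (γ : SL(2, ℤ)) y = h9constE (χ γ : ℂ) * y := by
  have hg' : iota (RingHom.id ℂ) g ≠ 0 :=
    (map_ne_zero_iff _ (iota_injective (RingHom.id ℂ))).mpr hg
  obtain ⟨y, hy⟩ := h9_root_merH p hp _ hg' (h9_dvd_ordE N p g hg hdiv)
  have hy0 : y ≠ 0 := by
    rintro rfl
    rw [zero_pow hp] at hy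
    exact hg' hy.symm
  obtain ⟨χ, hχ, hχy⟩ := h9_char p hp (Gamma0 N) _ y hy0 hy
    (fun γ hγ => tauE_iota_of_mem _ hγ g)
  exact ⟨y, χ, hy0, hy, hχ, hχy⟩

/-- Two modular functions with `p`-th roots of the same character differ by a `p`-th power. -/
theorem h9_eq_mul_pow_of_char_eq (N : ℕ) [NeZero N] (p : ℕ) (hp : p ≠ 0) (g g' : FK ℂ N)
    (y y' : MerH) (χ : Gamma0 N →* ℂˣ) (hy : y ≠ 0) (hy' : y' ≠ 0)
    (hyg : y ^ p = iota (RingHom.id ℂ) g) (hyg' : y' ^ p = iota (RingHom.id ℂ) g')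
    (hχ : ∀ γ : Gamma0 N, tauE (γ : SL(2, ℤ)) y = h9constE (χ γ : ℂ) * y)
    (hχ' : ∀ γ : Gamma0 N, tauE (γ : SL(2, ℤ)) y' = h9constE (χ γ : ℂ) * y') :
    ∃ h : FK ℂ N, h ≠ 0 ∧ iota (RingHom.id ℂ) h = y / y' ∧ g = g' * h ^ p := by
  have hg' : iota (RingHom.id ℂ) g' ≠ 0 := by
    rw [← hyg']
    exact pow_ne_zero p hy'
  have hc0 : ∀ γ : Gamma0 N, h9constE (χ γ : ℂ) ≠ 0 := fun γ =>
    (map_ne_zero_iff _ h9constE_injective).mpr (Units.ne_zero _)
  obtain ⟨h, hh⟩ := h9_invariant_root_mem N p hp (g / g') (y / y')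
    (by rw [div_pow, hyg, hyg', map_div₀])
    (fun γ hγ => by
      have h1 := hχ ⟨γ, hγ⟩
      have h2 := hχ' ⟨γ, hγ⟩
      simp only at h1 h2
      rw [map_div₀, h1, h2, mul_div_mul_left _ _ (hc0 ⟨γ, hγ⟩)])
  have hh0 : h ≠ 0 := by
    rintro rfl
    rw [map_zero] at hh
    exact (div_ne_zero hy hy') hh.symm
  refine ⟨h, hh0, hh, ?_⟩
  apply iota_injective (RingHom.id ℂ)
  rw [map_mul, map_pow, hh, div_pow, hyg, hyg', mul_div_cancel₀ _ hg']

/-- **Finiteness of the `p`-Selmer classes**: the modular functions whose divisor is divisible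
by `p` form finitely many classes modulo `p`-th powers. -/
theorem h9_selmer_finite (N : ℕ) [NeZero N] (p : ℕ) (hp : p ≠ 0) :
    ∃ 𝒮 : Finset (FK ℂ N), ∀ g : FK ℂ N, g ≠ 0 →
      (∀ v : Place ℂ (FK ℂ N), (p : ℤ) ∣ v.ord g) →
      ∃ s ∈ 𝒮, ∃ h : FK ℂ N, h ≠ 0 ∧ g = s * h ^ p := by
  classical
  have hfin := h9_char_finite p hp (Gamma0 N)
  -- the relation "`g` has a root of character `χ`"
  let R : FK ℂ N → (Gamma0 N →* ℂˣ) → Prop := fun g χ =>
    g ≠ 0 ∧ ∃ y : MerH, y ≠ 0 ∧ y ^ p = iota (RingHom.id ℂ) g ∧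
      ∀ γ : Gamma0 N, tauE (γ : SL(2, ℤ)) y = h9constE (χ γ : ℂ) * y
  let rep : (Gamma0 N →* ℂˣ) → FK ℂ N := fun χ =>
    if h : ∃ g, R g χ then h.choose else 1
  refine ⟨hfin.toFinset.image rep, fun g hg hdiv => ?_⟩
  obtain ⟨y, χ, hy0, hy, hχ, hχy⟩ := h9_exists_root_char N p hp g hg hdiv
  have hex : ∃ g, R g χ := ⟨g, hg, y, hy0, hy, hχy⟩
  have hrep : R (rep χ) χ := by
    have : rep χ = hex.choose := dif_pos hex
    rw [this]
    exact hex.choose_spec
  obtain ⟨-, y', hy'0, hy', hχy'⟩ := hrep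
  obtain ⟨h, hh0, -, hgh⟩ := h9_eq_mul_pow_of_char_eq N p hp g (rep χ) y y' χ hy0 hy'0 hy hy'
    hχy hχy'
  refine ⟨rep χ, ?_, h, hh0, hgh⟩
  rw [Finset.mem_image]
  exact ⟨χ, by rw [Set.Finite.mem_toFinset]; exact hχ, rfl⟩

end Fermat.Agent.S42x.Root.H9
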