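import Fermat.Agent.S24.H13_LinDisjoint
import Fermat.Agent.S24.H6_Frac

/-!
# W7 (K-uniq) (helper9), part 2: descent of membership in the modular function field

* `h9_coeffMap_mem_AK`    : `coeffMap e` maps `K[j_d]` into `L[j_d]`;
* `h9_coeffMap_mem_FK`    : `coeffMap e` maps `F_K` into `F_L`;
* `h9_AK_le_span`         : `L[j_d]` is the `L`-span of the image of `K[j_d]`;
* `h9_mem_FK_of_coeffMap` : **(LD-mem)** a Laurent series `x ∈ K((q))` with
  `coeffMap e x ∈ F_L` lies in `F_K` (linear disjointness of `K((q))` and `L` over `K`).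
-/

set_option autoImplicit false
set_option linter.unusedSectionVars false

open ModularCurve
open Fermat.Agent.S24 Fermat.Agent.S24.Real

namespace Fermat.Agent.S42x.Root.H9

variable {K L : Type*} [Field K] [Field L] [Algebra ℚ K] [Algebra ℚ L] (e : K →+* L) (N : ℕ)

lemma h9_smul_eq {K : Type*} [Field K] (c : K) (x : LaurentSeries K) :
    c • x = algebraMap K (LaurentSeries K) c * x :=
  (LD.algebraMap_mul_eq_smul c x).symm

lemma h9_coeffMap_coeffEmb (y : LaurentSeries ℚ) :
    coeffMap e (coeffEmb K y) = coeffEmb L y := by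
  rw [coeffEmb, coeffMap_coeffMap]
  exact coeffMap_congr (Subsingleton.elim _ _) y

/-- `coeffMap e` maps `K[j_d]` into `L[j_d]`. -/
lemma h9_coeffMap_mem_AK {a : LaurentSeries K} (ha : a ∈ AK K N) : coeffMap e a ∈ AK L N := by
  induction ha using Algebra.adjoin_induction with
  | mem x hx =>
    obtain ⟨y, hy, rfl⟩ := hx
    rw [h9_coeffMap_coeffEmb]
    exact Algebra.subset_adjoin ⟨y, hy, rfl⟩
  | algebraMap c =>
    rw [LD.coeffMap_algebraMap']
    exact Subalgebra.algebraMap_mem _ _
  | add x y _ _ hx hy => rw [map_add]; exact add_mem hx hy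
  | mul x y _ _ hx hy => rw [map_mul]; exact mul_mem hx hy

/-- `coeffMap e` maps `F_K` into `F_L`. -/
lemma h9_coeffMap_mem_FK {x : LaurentSeries K} (hx : x ∈ FK K N) : coeffMap e x ∈ FK L N := by
  obtain ⟨a, ha, b, hb, hb0, hab⟩ := exists_div_of_mem_FK hx
  have hb0' : coeffMap e b ≠ 0 := fun h =>
    hb0 (LD.coeffMap_injective e (by rw [h, map_zero]))
  have h1 : coeffMap e x = coeffMap e a / coeffMap e b := by
    rw [eq_div_iff hb0', ← map_mul, hab]
  rw [h1]
  exact div_mem (AK_le_FK L N (h9_coeffMap_mem_AK e N ha)) (AK_le_FK L N (h9_coeffMap_mem_AK e N hb))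

/-- The `L`-span of the image of `K[j_d]` is closed under multiplication. -/
lemma h9_span_mul {x y : LaurentSeries L}
    (hx : x ∈ Submodule.span L (coeffMap e '' (AK K N : Set (LaurentSeries K))))
    (hy : y ∈ Submodule.span L (coeffMap e '' (AK K N : Set (LaurentSeries K)))) :
    x * y ∈ Submodule.span L (coeffMap e '' (AK K N : Set (LaurentSeries K))) := by
  induction hy using Submodule.span_induction with
  | mem y hy =>
    obtain ⟨y', hy', rfl⟩ := hy
    induction hx using Submodule.span_induction with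
    | mem x hx =>
      obtain ⟨x', hx', rfl⟩ := hx
      rw [← map_mul]
      exact Submodule.subset_span ⟨x' * y', mul_mem hx' hy', rfl⟩
    | zero => rw [zero_mul]; exact Submodule.zero_mem _
    | add x₁ x₂ _ _ h₁ h₂ => rw [add_mul]; exact Submodule.add_mem _ h₁ h₂
    | smul c x _ h => rw [LD.smul_mul_assoc']; exact Submodule.smul_mem _ _ h
  | zero => rw [mul_zero]; exact Submodule.zero_mem _
  | add y₁ y₂ _ _ h₁ h₂ => rw [mul_add]; exact Submodule.add_mem _ h₁ h₂
  | smul c y _ h =>
    rw [mul_comm, LD.smul_mul_assoc', mul_comm]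
    exact Submodule.smul_mem _ _ h

/-- `L[j_d]` is the `L`-span of the image of `K[j_d]`. -/
lemma h9_AK_le_span {a : LaurentSeries L} (ha : a ∈ AK L N) :
    a ∈ Submodule.span L (coeffMap e '' (AK K N : Set (LaurentSeries K))) := by
  induction ha using Algebra.adjoin_induction with
  | mem x hx =>
    obtain ⟨y, hy, rfl⟩ := hx
    rw [← h9_coeffMap_coeffEmb e]
    exact Submodule.subset_span ⟨coeffEmb K y, Algebra.subset_adjoin ⟨y, hy, rfl⟩, rfl⟩
  | algebraMap c =>
    have h1 : algebraMap L (LaurentSeries L) c = c • coeffMap e (1 : LaurentSeries K) := by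
      rw [map_one, h9_smul_eq, mul_one]
    rw [h1]
    exact Submodule.smul_mem _ _ (Submodule.subset_span ⟨1, one_mem _, rfl⟩)
  | add x y _ _ hx hy => exact Submodule.add_mem _ hx hy
  | mul x y _ _ hx hy => exact h9_span_mul e N hx hy

/-- **(LD-mem)**: a Laurent series over `K` which becomes a modular function over `L` is a
modular function over `K`. -/
theorem h9_mem_FK_of_coeffMap (x : LaurentSeries K) (hx : coeffMap e x ∈ FK L N) :
    x ∈ FK K N := by
  classical
  by_contra hxF
  have hx0 : x ≠ 0 := fun h => hxF (h ▸ zero_mem _)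
  have hc : ∀ b' ∈ AK K N, x * b' ∈ AK K N → b' = 0 := by
    intro b' hb' hxb
    by_contra hb0
    apply hxF
    have h1 : x = (x * b') / b' := by field_simp
    rw [h1]
    exact div_mem (AK_le_FK K N hxb) (AK_le_FK K N hb')
  obtain ⟨a₀, ha₀, b₀, hb₀, hb₀0, hab⟩ := exists_div_of_mem_FK hx
  obtain ⟨b, hbA, hbspan, hbind⟩ :=
    exists_linearIndependent K (AK K N : Set (LaurentSeries K))
  -- the `K`-span of `K[j_d]` is `K[j_d]`
  have hspanA : ∀ y ∈ Submodule.span K (AK K N : Set (LaurentSeries K)), y ∈ AK K N := by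
    intro y hy
    induction hy using Submodule.span_induction with
    | mem y hy => exact hy
    | zero => exact zero_mem _
    | add y₁ y₂ _ _ h₁ h₂ => exact add_mem h₁ h₂
    | smul c y _ h => rw [h9_smul_eq]; exact mul_mem (Subalgebra.algebraMap_mem _ c) h
  -- multiplication by `x` on spans
  have hmulK : ∀ y ∈ Submodule.span K (Set.range fun i : b => x * (i : LaurentSeries K)),
      ∃ b' ∈ Submodule.span K (b : Set (LaurentSeries K)), y = x * b' := by
    intro y hy
    induction hy using Submodule.span_induction with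
    | mem y hy =>
      obtain ⟨i, rfl⟩ := hy
      exact ⟨i, Submodule.subset_span i.2, rfl⟩
    | zero => exact ⟨0, Submodule.zero_mem _, (mul_zero x).symm⟩
    | add y₁ y₂ _ _ h₁ h₂ =>
      obtain ⟨b₁, hb₁, rfl⟩ := h₁
      obtain ⟨b₂, hb₂, rfl⟩ := h₂
      exact ⟨b₁ + b₂, Submodule.add_mem _ hb₁ hb₂, (mul_add x b₁ b₂).symm⟩
    | smul c y _ h =>
      obtain ⟨b₁, hb₁, rfl⟩ := h
      refine ⟨c • b₁, Submodule.smul_mem _ _ hb₁, ?_⟩
      rw [h9_smul_eq, h9_smul_eq]
      ring
  let f : b ⊕ b → LaurentSeries K :=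
    Sum.elim (fun i => x * (i : LaurentSeries K)) (fun i => (i : LaurentSeries K))
  have hf : LinearIndependent K f := by
    rw [linearIndependent_sum]
    refine ⟨?_, hbind, ?_⟩
    · -- `x * i` are independent
      rw [linearIndependent_iff'] at hbind ⊢
      intro s g hg i hi
      apply hbind s g _ i hi
      have h1 : x * ∑ i ∈ s, g i • (i : LaurentSeries K) = 0 := by
        rw [Finset.mul_sum, ← hg]
        refine Finset.sum_congr rfl fun i _ => ?_
        show x * (g i • (i : LaurentSeries K)) = g i • (x * (i : LaurentSeries K))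
        rw [h9_smul_eq, h9_smul_eq]
        ring
      exact (mul_eq_zero.mp h1).resolve_left hx0
    · rw [Submodule.disjoint_def]
      intro y hy₁ hy₂
      obtain ⟨b', hb', rfl⟩ := hmulK y hy₁
      have hb'A : b' ∈ AK K N := hspanA b' (hbspan ▸ hb')
      have hyA : x * b' ∈ AK K N := by
        apply hspanA
        rw [← hbspan]
        have : (Set.range ((f ∘ Sum.inr) : b → LaurentSeries K)) = (b : Set (LaurentSeries K)) := by
          show Set.range (fun i : b => (i : LaurentSeries K)) = b
          exact Subtype.range_coe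
        rw [this] at hy₂
        exact hy₂
      rw [hc b' hb'A hyA, mul_zero]
  have hfL := LD.linearIndependent_coeffMap e f hf
  rw [linearIndependent_sum] at hfL
  obtain ⟨-, -, hdisj⟩ := hfL
  rw [Submodule.disjoint_def] at hdisj
  -- `L[j_d]` lies in the span of the images of the basis
  have hle : ∀ a ∈ AK L N, a ∈ Submodule.span L
      (Set.range fun i : b => coeffMap e (i : LaurentSeries K)) := by
    intro a ha
    have h1 := h9_AK_le_span e N ha
    have h2 : Submodule.span L (coeffMap e '' (AK K N : Set (LaurentSeries K))) ≤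
        Submodule.span L (Set.range fun i : b => coeffMap e (i : LaurentSeries K)) := by
      rw [Submodule.span_le]
      rintro _ ⟨y, hy, rfl⟩
      have h3 : y ∈ Submodule.span K (b : Set (LaurentSeries K)) := by
        rw [hbspan]
        exact Submodule.subset_span hy
      have h4 := LD.coeffMap_mem_span e h3
      have h5 : coeffMap e '' (b : Set (LaurentSeries K)) =
          Set.range fun i : b => coeffMap e (i : LaurentSeries K) := by
        ext z
        constructor
        · rintro ⟨w, hw, rfl⟩; exact ⟨⟨w, hw⟩, rfl⟩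
        · rintro ⟨w, rfl⟩; exact ⟨w, w.2, rfl⟩
      rw [h5] at h4
      exact h4
    exact h2 h1
  have hmulL : ∀ y ∈ Submodule.span L (Set.range fun i : b => coeffMap e (i : LaurentSeries K)),
      coeffMap e x * y ∈ Submodule.span L
        (Set.range fun i : b => coeffMap e (x * (i : LaurentSeries K))) := by
    intro y hy
    induction hy using Submodule.span_induction with
    | mem y hy =>
      obtain ⟨i, rfl⟩ := hy
      refine Submodule.subset_span ⟨i, ?_⟩
      show coeffMap e (x * (i : LaurentSeries K)) = _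
      rw [map_mul]
    | zero => rw [mul_zero]; exact Submodule.zero_mem _
    | add y₁ y₂ _ _ h₁ h₂ => rw [mul_add]; exact Submodule.add_mem _ h₁ h₂
    | smul c y _ h =>
      have : coeffMap e x * (c • y) = c • (coeffMap e x * y) := by
        rw [h9_smul_eq, h9_smul_eq]
        ring
      rw [this]
      exact Submodule.smul_mem _ _ h
  have h1 : a₀ ∈ Submodule.span L (Set.range ((fun i => coeffMap e (f i)) ∘ Sum.inl)) := by
    rw [← hab]
    exact hmulL b₀ (hle b₀ hb₀)
  have h2 : a₀ ∈ Submodule.span L (Set.range ((fun i => coeffMap e (f i)) ∘ Sum.inr)) :=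
    hle a₀ ha₀
  have h3 := hdisj a₀ h1 h2
  rw [h3] at hab
  rcases mul_eq_zero.mp hab with h | h
  · exact hx0 (LD.coeffMap_injective e (by rw [h, map_zero]))
  · exact hb₀0 h

end Fermat.Agent.S42x.Root.H9
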