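import Mathlib
import Fermat.Prelude.Def_ModularCurve_LaurentCoeff

/-!
# W7 (K-uniq) (helper9), part 1: `p`-th roots of Laurent series

* `h9_root_one_unit` : in characteristic `0`, a Laurent series `u` with `u ≡ 1` has a `p`-th
  root (binomial series);
* `h9_series_root`   : over a field of characteristic `0` in which every element is a `p`-th
  power, a Laurent series whose order is divisible by `p` is a `p`-th power;
* `h9_series_root_descent` : if `F ∈ K((q))` becomes a `p`-th power in `L((q))`, it is a `p`-th
  power in `K((q))`.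
-/

set_option autoImplicit false

open HahnSeries PowerSeries ModularCurve

namespace Fermat.Agent.S42x.Root.H9

section Root

variable {K : Type*} [Field K] [CharZero K]

lemma h9_binomialSeries_pow (r : K) (n : ℕ) :
    (binomialSeries K r) ^ n = binomialSeries K ((n : K) * r) := by
  induction n with
  | zero => simp
  | succ n ih =>
    rw [pow_succ, ih, ← binomialSeries_add]
    congr 1
    push_cast
    ring

lemma h9_binomialSeries_one : binomialSeries K (1 : K) = 1 + PowerSeries.X := by
  have h := binomialSeries_nat (R := K) (A := K) 1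
  rw [Nat.cast_one, pow_one] at h
  exact h

/-- In characteristic `0`, a Laurent series congruent to `1` has a `p`-th root. -/
theorem h9_root_one_unit (p : ℕ) (hp : p ≠ 0) (u : LaurentSeries K)
    (hu : 0 < (u - 1).orderTop) : ∃ W : LaurentSeries K, W ^ p = u := by
  refine ⟨PowerSeries.heval (u - 1) (binomialSeries K ((p : K)⁻¹)), ?_⟩
  rw [← map_pow, h9_binomialSeries_pow, mul_inv_cancel₀ (Nat.cast_ne_zero.mpr hp),
    h9_binomialSeries_one, map_add, map_one, heval_X _ hu]
  ring

/-- A Laurent series whose order is divisible by `p` is a `p`-th power, if the coefficient field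
has characteristic `0` and contains `p`-th roots of all its elements. -/
theorem h9_series_root (p : ℕ) (hp : p ≠ 0) (hroot : ∀ a : K, ∃ b : K, b ^ p = a)
    (F : LaurentSeries K) (hF : F ≠ 0) (m : ℤ) (hm : F.order = (p : ℤ) * m) :
    ∃ H : LaurentSeries K, H ^ p = F := by
  have ha : F.leadingCoeff ≠ 0 := leadingCoeff_ne_zero.mpr hF
  obtain ⟨b, hb⟩ := hroot F.leadingCoeff
  set u : LaurentSeries K := single (-((p : ℤ) * m)) (F.leadingCoeff)⁻¹ * F with hu
  have hu1 : 0 < (u - 1).orderTop := by
    rw [orderTop_self_sub_one_pos_iff]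
    constructor
    · rw [hu, orderTop_mul, orderTop_single (inv_ne_zero ha),
        ← order_eq_orderTop_of_ne_zero hF, hm, ← WithTop.coe_add]
      simp
    · rw [hu, leadingCoeff_mul, leadingCoeff_of_single, inv_mul_cancel₀ ha]
  obtain ⟨W, hW⟩ := h9_root_one_unit p hp u hu1
  refine ⟨single m b * W, ?_⟩
  rw [mul_pow, hW, single_pow, hb, hu, ← mul_assoc, single_mul_single, nsmul_eq_mul,
    mul_inv_cancel₀ ha]
  rw [add_neg_cancel, single_zero_one]
  exact one_mul F

end Root

section Descent

variable {K L : Type*} [Field K] [Field L]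

lemma h9_coeffMap_ne_zero (e : K →+* L) {F : LaurentSeries K} (hF : F ≠ 0) :
    coeffMap e F ≠ 0 := by
  intro h
  apply hF
  ext n
  have := congrArg (fun z : LaurentSeries L => z.coeff n) h
  simp only [coeffMap_coeff, HahnSeries.coeff_zero] at this
  rw [HahnSeries.coeff_zero]
  exact (map_eq_zero e).mp this

lemma h9_order_coeffMap (e : K →+* L) (F : LaurentSeries K) :
    (coeffMap e F).order = F.order := by
  by_cases hF : F = 0
  · rw [hF, map_zero]
    simp
  have hF' := h9_coeffMap_ne_zero e hF
  apply le_antisymm
  · apply order_le_of_coeff_ne_zero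
    rw [coeffMap_coeff]
    exact (map_ne_zero e).mpr (fun h => hF (coeff_order_eq_zero.mp h))
  · apply order_le_of_coeff_ne_zero
    have : (coeffMap e F).coeff (coeffMap e F).order ≠ 0 :=
      fun h => hF' (coeff_order_eq_zero.mp h)
    rw [coeffMap_coeff] at this
    exact (map_ne_zero e).mp this

lemma h9_order_pow (p : ℕ) (H : LaurentSeries L) : (H ^ p).order = (p : ℤ) * H.order := by
  by_cases hH : H = 0
  · rw [hH]
    rcases Nat.eq_zero_or_pos p with h0 | h0
    · subst h0
      simp
    · rw [zero_pow h0.ne']
      simp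
  induction p with
  | zero => simp
  | succ n ih =>
    rw [pow_succ, order_mul (pow_ne_zero n hH) hH, ih]
    push_cast
    ring

/-- If `F ∈ K((q))` becomes a `p`-th power in `L((q))`, then it is a `p`-th power in `K((q))`
(`K` of characteristic `0`, closed under `p`-th roots). -/
theorem h9_series_root_descent [CharZero K] (p : ℕ) (hp : p ≠ 0)
    (hroot : ∀ a : K, ∃ b : K, b ^ p = a) (e : K →+* L) (F : LaurentSeries K)
    (H : LaurentSeries L) (hHF : H ^ p = coeffMap e F) :
    ∃ H₁ : LaurentSeries K, H₁ ^ p = F := by
  by_cases hF : F = 0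
  · exact ⟨0, by rw [hF, zero_pow hp]⟩
  refine h9_series_root p hp hroot F hF H.order ?_
  rw [← h9_order_coeffMap e F, ← hHF, h9_order_pow]

end Descent

end Fermat.Agent.S42x.Root.H9
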