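import Fermat.Agent.S42x.Root.H9_Fin
import Fermat.Agent.S42x.Root.H9_LD
import Fermat.Agent.S42x.Root.H9_Series
import Fermat.Agent.S42x.Kum.H12_KumRel

/-!
# W7 (K-uniq) (helper9), part 3: injectivity of the Kummer relation

* `h9base e N`        : the base change `F_K → F_ℂ` along `e : K →+* ℂ`;
* `h9_iota_base`      : `iota id (base f) = iota e f`;
* `h9_root_descent`   : if `f ∈ F_K` (`K` algebraically closed of characteristic `0`) becomes a
  `p`-th power in `F_ℂ`, then it is a `p`-th power in `F_K`;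
* `h9_kumRel_uniq`    : **(K-uniq)** `KumRel x 0 → x = 0`.
-/

set_option autoImplicit false
set_option synthInstance.maxHeartbeats 400000
set_option maxHeartbeats 1000000
set_option linter.unusedSectionVars false

open AlgebraicCurve IntermediateField ModularCurve UpperHalfPlane CongruenceSubgroup Polynomial
open Fermat.Agent.S24 Fermat.Agent.S24.Mer Fermat.Agent.S24.Real
open scoped MatrixGroups

noncomputable section

namespace Fermat.Agent.S42x.Root.H9

section Base

variable {K : Type*} [Field K] [Algebra ℚ K] (e : K →+* ℂ) (N : ℕ)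

/-- The base change `F_K → F_ℂ`. -/
def h9base : FK K N →+* FK ℂ N where
  toFun f := ⟨coeffMap e f.1, h9_coeffMap_mem_FK e N f.2⟩
  map_one' := Subtype.ext (map_one (coeffMap e))
  map_mul' f g := Subtype.ext (map_mul (coeffMap e) f.1 g.1)
  map_zero' := Subtype.ext (map_zero (coeffMap e))
  map_add' f g := Subtype.ext (map_add (coeffMap e) f.1 g.1)

@[simp] lemma h9base_coe (f : FK K N) : ((h9base e N f : FK ℂ N) : LaurentSeries ℂ) =
    coeffMap e (f : LaurentSeries K) := rfl

lemma h9base_injective : Function.Injective (h9base e N) := (h9base e N).injective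

/-- The base change on `K[j_d]`. -/
def h9baseA (a : AK K N) : AK ℂ N := ⟨coeffMap e a.1, h9_coeffMap_mem_AK e N a.2⟩

lemma h9_rho_baseA (a : AK K N) : rho (RingHom.id ℂ) (h9baseA e N a) = rho e a := by
  have h1 := isModReal_rho (RingHom.id ℂ) (h9baseA e N a)
  have h2 := isModReal_rho e a
  have h3 : coeffMap (RingHom.id ℂ) ((h9baseA e N a : AK ℂ N) : LaurentSeries ℂ) =
      coeffMap e (a : LaurentSeries K) := coeffMap_id _
  rw [h3] at h1
  exact h1.unique_fun h2

lemma h9_rhoH_baseA (a : AK K N) : rhoH (RingHom.id ℂ) (h9baseA e N a) = rhoH e a :=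
  Subtype.ext (h9_rho_baseA e N a)

lemma h9base_incl (a : AK K N) : h9base e N (inclAK K N a) = inclAK ℂ N (h9baseA e N a) := rfl

/-- Compatibility of the realisations with base change. -/
theorem h9_iota_base (f : FK K N) : iota (RingHom.id ℂ) (h9base e N f) = iota e f := by
  obtain ⟨a, b, hb, hab⟩ := exists_frac f
  have hb' : h9baseA e N b ≠ 0 := by
    intro h
    apply hb
    apply Subtype.ext
    have h1 : coeffMap e (b : LaurentSeries K) = 0 := congrArg Subtype.val h
    exact LD.coeffMap_injective e (h1.trans (map_zero _).symm)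
  have hab' : h9base e N f * inclAK ℂ N (h9baseA e N b) = inclAK ℂ N (h9baseA e N a) := by
    rw [← h9base_incl, ← h9base_incl, ← map_mul, hab]
  rw [iota_eq_div e f a b hb hab, iota_eq_div _ _ _ _ hb' hab', h9_rhoH_baseA, h9_rhoH_baseA]

end Base

/-- The `p`-th roots of unity in `ℂ((q))` are constants. -/
lemma h9_series_const_of_pow_eq_one (p : ℕ) (hp : p ≠ 0) (u : LaurentSeries ℂ) (hu : u ^ p = 1) :
    ∃ c : ℂ, u = algebraMap ℂ (LaurentSeries ℂ) c := by
  have hP : (X ^ p - 1 : ℂ[X]) ≠ 0 := by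
    have h := (monic_X_pow_sub_C (1 : ℂ) hp).ne_zero
    rwa [map_one] at h
  have hroot : ((X ^ p - 1 : ℂ[X]).map (algebraMap ℂ (LaurentSeries ℂ))).IsRoot u := by
    rw [IsRoot.def, Polynomial.map_sub, Polynomial.map_pow, Polynomial.map_X,
      Polynomial.map_one, eval_sub, eval_pow, eval_X, eval_one, hu, sub_self]
  obtain ⟨c, hc⟩ := (IsAlgClosed.splits (X ^ p - 1 : ℂ[X])).mem_range_of_isRoot hP hroot
  exact ⟨c, hc.symm⟩

/-- **Descent of `p`-th roots**: if `f ∈ F_K` becomes a `p`-th power in `F_ℂ`, it is a `p`-th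
power in `F_K` (`K` of characteristic `0`, closed under `p`-th roots). -/
theorem h9_root_descent {K : Type*} [Field K] [Algebra ℚ K] [CharZero K] (e : K →+* ℂ) (N : ℕ)
    (p : ℕ) (hp : p ≠ 0) (hroot : ∀ a : K, ∃ b : K, b ^ p = a) (f : FK K N) (h : FK ℂ N)
    (hhf : h ^ p = h9base e N f) : ∃ h₀ : FK K N, h₀ ^ p = f := by
  by_cases hf : f = 0
  · exact ⟨0, by rw [hf, zero_pow hp]⟩
  have hh0 : h ≠ 0 := by
    rintro rfl
    rw [zero_pow hp] at hhf
    exact hf (h9base_injective e N (by rw [← hhf, map_zero]))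
  have hh0' : (h : LaurentSeries ℂ) ≠ 0 := fun h0 => hh0 (Subtype.ext h0)
  have hhf' : (h : LaurentSeries ℂ) ^ p = coeffMap e (f : LaurentSeries K) :=
    congrArg Subtype.val hhf
  obtain ⟨H₁, hH₁⟩ := h9_series_root_descent p hp hroot e (f : LaurentSeries K)
    (h : LaurentSeries ℂ) hhf'
  obtain ⟨c, hc⟩ := h9_series_const_of_pow_eq_one p hp (coeffMap e H₁ / (h : LaurentSeries ℂ)) (by
    rw [div_pow, ← map_pow, hH₁, hhf', div_self]
    rw [← hhf']
    exact pow_ne_zero p hh0')
  have hmem : coeffMap e H₁ ∈ FK ℂ N := by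
    have h1 : coeffMap e H₁ = algebraMap ℂ (LaurentSeries ℂ) c * (h : LaurentSeries ℂ) := by
      rw [← hc, div_mul_cancel₀ _ hh0']
    rw [h1]
    exact mul_mem (IntermediateField.algebraMap_mem _ c) h.2
  exact ⟨⟨H₁, h9_mem_FK_of_coeffMap e N H₁ hmem⟩, Subtype.ext hH₁⟩

/-- **(K-uniq)**: a class in Kummer relation with the trivial homomorphism is trivial. -/
theorem h9_kumRel_uniq (N : ℕ) [NeZero N] (p : ℕ) (hp : p ≠ 0) (e : AlgebraicClosure ℚ →+* ℂ)
    (ζ : ℂ) (x : JZero N) (h : Fermat.Agent.S42x.Kum.H12.KumRel N p e ζ x 0) : x = 0 := by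
  obtain ⟨f, D, y, hf, hD, hx, hy, hγ⟩ := h
  -- `y` is invariant
  have hinv : ∀ γ ∈ Gamma0 N, tauE γ y = y := by
    intro γ hγ'
    have h1 := hγ ⟨γ, hγ'⟩
    rw [AddMonoidHom.zero_apply, zpow_zero, map_one, one_mul] at h1
    exact h1
  -- (R7): `y` is a modular function over `ℂ`
  obtain ⟨h, hh⟩ := h9_invariant_root_mem N p hp
    (h9base e N (f : FK (AlgebraicClosure ℚ) N)) y
    (by rw [hy, h9_iota_base]) hinv
  have hhp : h ^ p = h9base e N (f : FK (AlgebraicClosure ℚ) N) := by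
    apply iota_injective (RingHom.id ℂ)
    rw [map_pow, hh, hy, h9_iota_base]
  -- descent of the root
  have hroot : ∀ a : AlgebraicClosure ℚ, ∃ b, b ^ p = a := fun a =>
    IsAlgClosed.exists_pow_nat_eq a (Nat.pos_of_ne_zero hp)
  obtain ⟨h₀, hh₀⟩ := h9_root_descent e N p hp hroot (f : FK (AlgebraicClosure ℚ) N) h hhp
  have hh₀0 : h₀ ≠ 0 := by
    rintro rfl
    rw [zero_pow hp] at hh₀
    exact hf hh₀.symm
  -- `D` is the divisor of `h₀`
  rw [← hx]
  show (QuotientAddGroup.mk D : Pic0 _ _) = 0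
  rw [QuotientAddGroup.eq_zero_iff, AddSubgroup.mem_addSubgroupOf]
  refine ⟨h₀, hh₀0, fun v => ?_⟩
  have h1 := hD v
  have h2 : v.ord f = (p : ℤ) * v.ord h₀ := by
    have : f = h₀ ^ (p : ℤ) := by rw [zpow_natCast]; exact hh₀.symm
    rw [this, v.ord_zpow]
  rw [h2] at h1
  exact mul_left_cancel₀ (Nat.cast_ne_zero.mpr hp) h1

end Fermat.Agent.S42x.Root.H9
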