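import Fermat.Agent.S42x.Root.H9_Mer

/-!
# W7 (B2') [ROOT] (helper9), part 4: the character of a `p`-th root

* `h9constE c`              : the constant `c` as an element of `MerH`;
* `h9_const_of_isRoot`      : `ℂ` is algebraically closed in `MerH`;
* `h9_const_of_pow_eq_one`  : the `p`-th roots of unity of `MerH` are constants;
* `h9_char`                 : **(R3)** if `y ^ p = x` and `x` is invariant under a subgroup `Γ`
  of `SL(2, ℤ)`, then `tauE γ y = χ γ • y` for a character `χ : Γ →* ℂˣ` with `χ ^ p = 1`.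
-/

set_option autoImplicit false
set_option linter.unusedSectionVars false

open UpperHalfPlane Polynomial
open scoped Manifold MatrixGroups Topology
open Fermat.Agent.S24.Mer

namespace Fermat.Agent.S42x.Root.H9

/-- Constants in `MerH`. -/
noncomputable def h9constE : ℂ →+* MerH := (algebraMap HolH MerH).comp constH

lemma h9constE_apply (c : ℂ) : h9constE c = algebraMap HolH MerH (constH c) := rfl

lemma h9constE_injective : Function.Injective h9constE :=
  algebraMap_MerH_injective.comp constH_injective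

@[simp] lemma h9_tauE_constE (g : SL(2, ℤ)) (c : ℂ) : tauE g (h9constE c) = h9constE c := by
  rw [h9constE_apply, tauE_algebraMap, tau_constH]

/-- `ℂ` is algebraically closed in `MerH`. -/
theorem h9_const_of_isRoot (P : ℂ[X]) (hP : P ≠ 0) (u : MerH)
    (hu : (P.map h9constE).IsRoot u) : ∃ c : ℂ, u = h9constE c := by
  obtain ⟨c, hc⟩ := (IsAlgClosed.splits P).mem_range_of_isRoot hP hu
  exact ⟨c, hc.symm⟩

/-- The `p`-th roots of unity in `MerH` are constants. -/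
theorem h9_const_of_pow_eq_one (p : ℕ) (hp : p ≠ 0) (u : MerH) (hu : u ^ p = 1) :
    ∃ c : ℂ, c ^ p = 1 ∧ u = h9constE c := by
  have hP : (X ^ p - 1 : ℂ[X]) ≠ 0 := by
    have h := (monic_X_pow_sub_C (1 : ℂ) hp).ne_zero
    rwa [map_one] at h
  obtain ⟨c, rfl⟩ := h9_const_of_isRoot (X ^ p - 1) hP u (by
    rw [IsRoot.def, Polynomial.map_sub, Polynomial.map_pow, Polynomial.map_X,
      Polynomial.map_one, eval_sub, eval_pow, eval_X, eval_one, hu, sub_self])
  refine ⟨c, ?_, rfl⟩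
  apply h9constE_injective
  rw [map_pow, hu, map_one]

/-- **(R3)** the character of a `p`-th root of a `Γ`-invariant meromorphic function. -/
theorem h9_char (p : ℕ) (hp : p ≠ 0) (Γ : Subgroup SL(2, ℤ)) (x y : MerH) (hy : y ≠ 0)
    (hyx : y ^ p = x) (hinv : ∀ γ ∈ Γ, tauE γ x = x) :
    ∃ χ : Γ →* ℂˣ, (∀ γ, χ γ ^ p = 1) ∧
      ∀ γ : Γ, tauE (γ : SL(2, ℤ)) y = h9constE (χ γ : ℂ) * y := by
  have hx : x ≠ 0 := by rw [← hyx]; exact pow_ne_zero p hy
  have key : ∀ γ : Γ, ∃ c : ℂ, c ^ p = 1 ∧ tauE (γ : SL(2, ℤ)) y = h9constE c * y := by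
    intro γ
    obtain ⟨c, hc, hu⟩ := h9_const_of_pow_eq_one p hp (tauE (γ : SL(2, ℤ)) y / y) (by
      rw [div_pow, ← map_pow, hyx, hinv γ γ.2, div_self hx])
    exact ⟨c, hc, by rw [← hu, div_mul_cancel₀ _ hy]⟩
  choose c hc hcy using key
  have hc0 : ∀ γ, c γ ≠ 0 := fun γ h => by
    have := hc γ
    rw [h, zero_pow hp] at this
    exact zero_ne_one this
  have hmul : ∀ γ γ' : Γ, c (γ * γ') = c γ * c γ' := by
    intro γ γ'
    apply h9constE_injective
    apply mul_right_cancel₀ hy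
    rw [← hcy, Subgroup.coe_mul, tauE_mul, hcy γ', map_mul, h9_tauE_constE, hcy γ, map_mul]
    ring
  refine ⟨MonoidHom.mk' (fun γ => Units.mk0 (c γ) (hc0 γ)) (fun γ γ' => ?_), fun γ => ?_,
    fun γ => ?_⟩
  · apply Units.ext
    simp only [Units.val_mk0, Units.val_mul]
    exact hmul γ γ'
  · apply Units.ext
    simp only [MonoidHom.mk'_apply, Units.val_pow_eq_pow_val, Units.val_mk0, Units.val_one]
    exact hc γ
  · simp only [MonoidHom.mk'_apply, Units.val_mk0]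
    exact hcy γ

/-- Uniqueness of the multiplier. -/
lemma h9_multiplier_unique {y : MerH} (hy : y ≠ 0) {c c' : ℂ}
    (h : h9constE c * y = h9constE c' * y) : c = c' :=
  h9constE_injective (mul_right_cancel₀ hy h)

/-- The character of `y` is trivial at `γ` iff `γ` fixes `y`. -/
lemma h9_char_eq_one_iff {Γ : Subgroup SL(2, ℤ)} {y : MerH} (hy : y ≠ 0) (χ : Γ →* ℂˣ)
    (hχ : ∀ γ : Γ, tauE (γ : SL(2, ℤ)) y = h9constE (χ γ : ℂ) * y) (γ : Γ) :
    χ γ = 1 ↔ tauE (γ : SL(2, ℤ)) y = y := by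
  rw [hχ γ]
  constructor
  · intro h
    rw [h, Units.val_one, map_one, one_mul]
  · intro h
    apply Units.ext
    apply h9constE_injective
    apply mul_right_cancel₀ hy
    rw [h, Units.val_one, map_one, one_mul]

/-- Uniqueness of the character. -/
lemma h9_char_unique {Γ : Subgroup SL(2, ℤ)} {y : MerH} (hy : y ≠ 0) (χ χ' : Γ →* ℂˣ)
    (hχ : ∀ γ : Γ, tauE (γ : SL(2, ℤ)) y = h9constE (χ γ : ℂ) * y)
    (hχ' : ∀ γ : Γ, tauE (γ : SL(2, ℤ)) y = h9constE (χ' γ : ℂ) * y) : χ = χ' := by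
  ext γ
  exact h9_multiplier_unique hy ((hχ γ).symm.trans (hχ' γ))

/-- The character of a product is the product of the characters. -/
lemma h9_char_mul {Γ : Subgroup SL(2, ℤ)} {y y' : MerH} (χ χ' : Γ →* ℂˣ)
    (hχ : ∀ γ : Γ, tauE (γ : SL(2, ℤ)) y = h9constE (χ γ : ℂ) * y)
    (hχ' : ∀ γ : Γ, tauE (γ : SL(2, ℤ)) y' = h9constE (χ' γ : ℂ) * y') (γ : Γ) :
    tauE (γ : SL(2, ℤ)) (y * y') = h9constE ((χ * χ') γ : ℂ) * (y * y') := by
  rw [map_mul, hχ γ, hχ' γ, MonoidHom.mul_apply, Units.val_mul, map_mul]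
  ring

/-- The character of an inverse is the inverse of the character. -/
lemma h9_char_inv {Γ : Subgroup SL(2, ℤ)} {y : MerH} (χ : Γ →* ℂˣ)
    (hχ : ∀ γ : Γ, tauE (γ : SL(2, ℤ)) y = h9constE (χ γ : ℂ) * y) (γ : Γ) :
    tauE (γ : SL(2, ℤ)) y⁻¹ = h9constE ((χ⁻¹) γ : ℂ) * y⁻¹ := by
  rw [map_inv₀, hχ γ, MonoidHom.inv_apply, Units.val_inv_eq_inv_val, map_inv₀, mul_inv]

/-- Multiplying by a `Γ`-invariant element does not change the character. -/
lemma h9_char_mul_invariant {Γ : Subgroup SL(2, ℤ)} {y u : MerH} (χ : Γ →* ℂˣ)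
    (hχ : ∀ γ : Γ, tauE (γ : SL(2, ℤ)) y = h9constE (χ γ : ℂ) * y)
    (hu : ∀ γ ∈ Γ, tauE γ u = u) (γ : Γ) :
    tauE (γ : SL(2, ℤ)) (u * y) = h9constE (χ γ : ℂ) * (u * y) := by
  rw [map_mul, hχ γ, hu γ γ.2]
  ring

/-- **(R4)** a character of exponent `p` kills every element of finite order prime to `p`
(for `Γ ≤ SL(2, ℤ)` and `p` prime to `6`: every elliptic element and `-1`). -/
theorem h9_char_torsion {G : Type*} [Group G] (p : ℕ) (χ : G →* ℂˣ) (hχ : ∀ γ, χ γ ^ p = 1)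
    (γ : G) (n : ℕ) (hn : Nat.Coprime n p) (hγ : γ ^ n = 1) : χ γ = 1 := by
  have h1 : χ γ ^ n = 1 := by rw [← map_pow, hγ, map_one]
  have h2 : χ γ ^ Nat.gcd n p = 1 := pow_gcd_eq_one.mpr ⟨h1, hχ γ⟩
  rwa [Nat.Coprime.gcd_eq_one hn, pow_one] at h2

/-- `SL(2, ℤ)` is finitely generated. -/
lemma h9_fg_SL2Z : Group.FG SL(2, ℤ) := by
  classical
  refine ⟨⟨{ModularGroup.S, ModularGroup.T}, ?_⟩⟩
  rw [Finset.coe_insert, Finset.coe_singleton]
  exact SpecialLinearGroup.SL2Z_generators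

/-- A subgroup of finite index of `SL(2, ℤ)` is finitely generated. -/
lemma h9_fg_of_finiteIndex (Γ : Subgroup SL(2, ℤ)) [Γ.FiniteIndex] : Group.FG Γ := by
  have := h9_fg_SL2Z
  exact Subgroup.fg_of_index_ne_zero Γ

/-- **(R5)** finiteness: a finitely generated group has only finitely many characters of
exponent `p`. -/
theorem h9_char_finite_of_fg {G : Type*} [Group G] [Group.FG G] (p : ℕ) (hp : p ≠ 0) :
    Set.Finite {χ : G →* ℂˣ | ∀ γ, χ γ ^ p = 1} := by
  classical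
  obtain ⟨s, hs⟩ := Group.fg_def.mp (inferInstance : Group.FG G)
  have : NeZero p := ⟨hp⟩
  rw [← Set.finite_coe_iff]
  let Φ : {χ : G →* ℂˣ | ∀ γ, χ γ ^ p = 1} → (s → rootsOfUnity p ℂ) :=
    fun χ g => ⟨χ.1 (g : G), (mem_rootsOfUnity p _).mpr (χ.2 (g : G))⟩
  refine Finite.of_injective Φ ?_
  intro χ χ' h
  apply Subtype.ext
  apply MonoidHom.eq_of_eqOn_dense hs
  intro g hg
  have := congrFun h ⟨g, hg⟩
  exact congrArg Subtype.val this

/-- **(R5)** finiteness for subgroups of finite index of `SL(2, ℤ)`. -/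
theorem h9_char_finite (p : ℕ) (hp : p ≠ 0) (Γ : Subgroup SL(2, ℤ)) [Γ.FiniteIndex] :
    Set.Finite {χ : Γ →* ℂˣ | ∀ γ, χ γ ^ p = 1} := by
  have := h9_fg_of_finiteIndex Γ
  exact h9_char_finite_of_fg p hp

end Fermat.Agent.S42x.Root.H9
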