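import Mathlib

/-!
# W7 (B2') [ROOT] (helper9), part 1: holomorphic `p`-th roots on a disc

If `f` is analytic on a neighbourhood of a closed disc, not locally zero, and all its orders of
vanishing on the closed disc are divisible by `p`, then `f` has an analytic `p`-th root on the
open disc.
-/

set_option autoImplicit false
set_option linter.unusedSectionVars false

open Metric Set Filter Function Topology

namespace Fermat.Agent.S42x.Root.H9

/-- A zero-free analytic function on a neighbourhood of a closed disc has an analytic `p`-th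
root on the open disc. -/
theorem h9_root_ball_nonvanishing (p : ℕ) (hp : p ≠ 0) (g : ℂ → ℂ) (c₀ : ℂ) (r : ℝ)
    (hg : AnalyticOnNhd ℂ g (ball c₀ r)) (hg0 : ∀ u ∈ ball c₀ r, g u ≠ 0) :
    ∃ ρ : ℂ → ℂ, AnalyticOnNhd ℂ ρ (ball c₀ r) ∧ ∀ z ∈ ball c₀ r, ρ z ^ p = g z := by
  rcases (ball c₀ r).eq_empty_or_nonempty with hemp | ⟨z₁, hz₁⟩
  · exact ⟨fun _ => 0, by rw [hemp]; intro z hz; exact hz.elim, by rw [hemp]; intro z hz; exact hz.elim⟩
  -- a primitive of the logarithmic derivative
  have hF : DifferentiableOn ℂ (fun z => deriv g z / g z) (ball c₀ r) :=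
    (hg.deriv.div hg hg0).differentiableOn
  obtain ⟨L, hL⟩ := hF.isExactOn_ball
  -- `g * exp (-L)` is constant
  have hψ : ∀ z ∈ ball c₀ r, HasDerivAt (fun z => g z * Complex.exp (-L z)) 0 z := by
    intro z hz
    have h1 : HasDerivAt g (deriv g z) z := (hg z hz).differentiableAt.hasDerivAt
    have h2 : HasDerivAt (fun z => Complex.exp (-L z))
        (Complex.exp (-L z) * -(deriv g z / g z)) z := (hL z hz).neg.cexp
    have h3 : HasDerivAt (fun z => g z * Complex.exp (-L z))
        (deriv g z * Complex.exp (-L z) +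
          g z * (Complex.exp (-L z) * -(deriv g z / g z))) z := h1.mul h2
    have hz0 := hg0 z hz
    have hval : deriv g z * Complex.exp (-L z) +
        g z * (Complex.exp (-L z) * -(deriv g z / g z)) = 0 := by
      rw [mul_neg, mul_neg, mul_comm (Complex.exp (-L z)) (deriv g z / g z), ← mul_assoc,
        mul_div_cancel₀ _ hz0, add_neg_cancel]
    rw [hval] at h3
    exact h3
  have hconst : ∀ z ∈ ball c₀ r, g z * Complex.exp (-L z) = g z₁ * Complex.exp (-L z₁) := by
    intro z hz
    refine isOpen_ball.is_const_of_deriv_eq_zero (convex_ball c₀ r).isPreconnected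
      (fun w hw => (hψ w hw).differentiableAt.differentiableWithinAt)
      (fun w hw => (hψ w hw).deriv) hz hz₁
  set C : ℂ := g z₁ * Complex.exp (-L z₁) with hC
  have hC0 : C ≠ 0 := mul_ne_zero (hg0 z₁ hz₁) (Complex.exp_ne_zero _)
  refine ⟨fun z => Complex.exp ((L z + Complex.log C) / p), ?_, ?_⟩
  · intro z hz
    have hd : DifferentiableOn ℂ (fun z => Complex.exp ((L z + Complex.log C) / p))
        (ball c₀ r) := by
      intro w hw
      exact ((((hL w hw).differentiableAt.add_const _).div_const _).cexp).differentiableWithinAt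
    exact hd.analyticAt (isOpen_ball.mem_nhds hz)
  · intro z hz
    have hpc : (p : ℂ) ≠ 0 := Nat.cast_ne_zero.mpr hp
    rw [← Complex.exp_nat_mul, mul_div_cancel₀ _ hpc, Complex.exp_add, Complex.exp_log hC0]
    have := hconst z hz
    have he : Complex.exp (L z) * Complex.exp (-L z) = 1 := by
      rw [← Complex.exp_add, add_neg_cancel, Complex.exp_zero]
    calc Complex.exp (L z) * C = Complex.exp (L z) * (g z * Complex.exp (-L z)) := by rw [this]
      _ = g z * (Complex.exp (L z) * Complex.exp (-L z)) := by ring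
      _ = g z := by rw [he, mul_one]

/-- The divisor of an analytic function on a set, in terms of `analyticOrderNatAt`. -/
theorem h9_divisor_eq (f : ℂ → ℂ) (U : Set ℂ) (hf : AnalyticOnNhd ℂ f U)
    (hne : ∀ u ∈ U, analyticOrderAt f u ≠ ⊤) (u : ℂ) (hu : u ∈ U) :
    MeromorphicOn.divisor f U u = (analyticOrderNatAt f u : ℤ) := by
  rw [MeromorphicOn.AnalyticOnNhd.divisor_apply hf hu, ← Nat.cast_analyticOrderNatAt (hne u hu)]
  rfl

/-- **Roots on a disc.** If `f` is analytic on a neighbourhood of a closed disc, not locally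
zero, with all orders of vanishing on the closed disc divisible by `p`, then `f` has an analytic
`p`-th root on the open disc. -/
theorem h9_root_ball (p : ℕ) (hp : p ≠ 0) (f : ℂ → ℂ) (c₀ : ℂ) (r : ℝ)
    (hf : AnalyticOnNhd ℂ f (closedBall c₀ r))
    (hne : ∀ u ∈ closedBall c₀ r, analyticOrderAt f u ≠ ⊤)
    (hdiv : ∀ u ∈ closedBall c₀ r, p ∣ analyticOrderNatAt f u) :
    ∃ c : ℂ → ℂ, AnalyticOnNhd ℂ c (ball c₀ r) ∧ ∀ z ∈ ball c₀ r, c z ^ p = f z := by
  classical
  set U : Set ℂ := closedBall c₀ r with hU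
  have hmer : MeromorphicOn f U := hf.meromorphicOn
  have hfin : (MeromorphicOn.divisor f U).support.Finite :=
    (MeromorphicOn.divisor f U).finiteSupport (isCompact_closedBall c₀ r)
  obtain ⟨g, hg, hg0, hfg⟩ := hmer.extract_zeros_poles (fun u => by
    rw [(hf u u.2).meromorphicOrderAt_eq]
    intro h
    apply hne u u.2
    rcases hord : analyticOrderAt f u with _ | n
    · rfl
    · rw [hord] at h
      exact absurd h (by exact WithTop.coe_ne_top)) hfin
  -- the divisor is divisible by `p`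
  have hDdvd : ∀ u, (p : ℤ) ∣ MeromorphicOn.divisor f U u := by
    intro u
    by_cases hu : u ∈ U
    · rw [h9_divisor_eq f U hf hne u hu]
      exact Int.natCast_dvd_natCast.mpr (hdiv u hu)
    · rw [Function.locallyFinsuppWithin.apply_eq_zero_of_notMem _ hu]
      exact dvd_zero _
  have hD0 : ∀ u, 0 ≤ MeromorphicOn.divisor f U u := fun u => MeromorphicOn.AnalyticOnNhd.divisor_nonneg hf u
  set E : ℂ → ℤ := fun u => MeromorphicOn.divisor f U u / p with hE
  have hDE : ∀ u, MeromorphicOn.divisor f U u = E u * p := fun u =>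
    (Int.ediv_mul_cancel (hDdvd u)).symm
  have hE0 : ∀ u, 0 ≤ E u := fun u => Int.ediv_nonneg (hD0 u) (Int.natCast_nonneg p)
  have hEsupp : E.support ⊆ (MeromorphicOn.divisor f U).support := by
    intro u hu
    rw [Function.mem_support] at hu ⊢
    intro h0
    apply hu
    simp only [hE, h0, Int.zero_ediv]
  have hEfin : E.support.Finite := hfin.subset hEsupp
  set Q : ℂ → ℂ := ∏ᶠ u, (· - u) ^ E u with hQ
  have hQan : ∀ x, AnalyticAt ℂ Q x := fun x =>
    Function.FactorizedRational.analyticAt (hE0 x)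
  have hQp : ∀ x, Q x ^ p = (∏ᶠ u, (· - u) ^ MeromorphicOn.divisor f U u) x := by
    intro x
    rw [hQ, Function.FactorizedRational.finprod_eq_fun hEfin,
      Function.FactorizedRational.finprod_eq_fun hfin]
    show (∏ᶠ u, (x - u) ^ E u) ^ p = ∏ᶠ u, (x - u) ^ MeromorphicOn.divisor f U u
    rw [finprod_pow]
    · refine finprod_congr fun u => ?_
      rw [hDE u, zpow_mul, zpow_natCast]
    · refine hEfin.subset fun u hu => ?_
      rw [Function.mem_mulSupport] at hu
      rw [Function.mem_support]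
      intro h0
      apply hu
      rw [h0, zpow_zero]
  obtain ⟨ρ, hρ, hρp⟩ := h9_root_ball_nonvanishing p hp g c₀ r
    (hg.mono ball_subset_closedBall) (fun u hu => hg0 ⟨u, ball_subset_closedBall hu⟩)
  refine ⟨fun z => Q z * ρ z, fun z hz => (hQan z).mul (hρ z hz), ?_⟩
  have han1 : AnalyticOnNhd ℂ (fun z => (Q z * ρ z) ^ p) (ball c₀ r) :=
    fun z hz => ((hQan z).mul (hρ z hz)).pow p
  have han2 : AnalyticOnNhd ℂ f (ball c₀ r) := hf.mono ball_subset_closedBall
  intro z hz
  refine han1.eqOn_of_preconnected_of_frequently_eq han2 (convex_ball c₀ r).isPreconnected hz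
    ?_ hz
  apply Filter.Eventually.frequently
  have h1 := (mem_codiscreteWithin.mp hfg) z (ball_subset_closedBall hz)
  rw [Filter.disjoint_principal_right] at h1
  have h2 : ball c₀ r ∈ 𝓝[≠] z := mem_nhdsWithin_of_mem_nhds (isOpen_ball.mem_nhds hz)
  filter_upwards [h1, h2] with w hw1 hw2
  have hwS : f w = ((∏ᶠ u, (· - u) ^ MeromorphicOn.divisor f U u) • g) w := by
    by_contra hcon
    exact hw1 ⟨ball_subset_closedBall hw2, hcon⟩
  rw [hwS, mul_pow, hQp w, hρp w hw2]
  rfl

/-- **Uniqueness of normalised roots.** Two analytic functions on a preconnected open set with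
the same `p`-th power which agree at one point where they do not vanish are equal. -/
theorem h9_root_unique (p : ℕ) (hp : p ≠ 0) (W : Set ℂ) (hW : IsOpen W)
    (hWc : IsPreconnected W) (c₁ c₂ : ℂ → ℂ) (h₁ : AnalyticOnNhd ℂ c₁ W)
    (h₂ : AnalyticOnNhd ℂ c₂ W) (hpow : ∀ z ∈ W, c₁ z ^ p = c₂ z ^ p) (z₀ : ℂ) (hz₀ : z₀ ∈ W)
    (h0 : c₂ z₀ ≠ 0) (heq : c₁ z₀ = c₂ z₀) : EqOn c₁ c₂ W := by
  refine h₁.eqOn_of_preconnected_of_eventuallyEq h₂ hWc hz₀ ?_
  -- a small ball on which `c₂` does not vanish
  have hev : ∀ᶠ z in 𝓝 z₀, z ∈ W ∧ c₂ z ≠ 0 :=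
    Filter.Eventually.and (hW.mem_nhds hz₀) ((h₂ z₀ hz₀).continuousAt.eventually_ne h0)
  obtain ⟨ε, hε, hball⟩ := Metric.eventually_nhds_iff_ball.mp hev
  have hpc : (p : ℂ) ≠ 0 := Nat.cast_ne_zero.mpr hp
  -- the quotient has derivative zero on the ball
  have hq : ∀ z ∈ ball z₀ ε, HasDerivAt (fun z => c₁ z / c₂ z) 0 z := by
    intro z hz
    obtain ⟨hzW, hz0⟩ := hball z hz
    have hd : DifferentiableAt ℂ (fun z => c₁ z / c₂ z) z :=
      (h₁ z hzW).differentiableAt.div (h₂ z hzW).differentiableAt hz0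
    have hone : (fun w => (c₁ w / c₂ w) ^ p) =ᶠ[𝓝 z] fun _ => (1 : ℂ) := by
      filter_upwards [isOpen_ball.mem_nhds hz] with w hw
      obtain ⟨hwW, hw0⟩ := hball w hw
      rw [div_pow, hpow w hwW, div_self (pow_ne_zero p hw0)]
    have hder1 : HasDerivAt (fun w => (c₁ w / c₂ w) ^ p)
        ((p : ℂ) * (c₁ z / c₂ z) ^ (p - 1) * deriv (fun z => c₁ z / c₂ z) z) z :=
      hd.hasDerivAt.pow p
    have hder2 : HasDerivAt (fun w => (c₁ w / c₂ w) ^ p) 0 z :=
      (hasDerivAt_const z (1 : ℂ)).congr_of_eventuallyEq hone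
    have hzero := hder1.unique hder2
    have hqne : c₁ z / c₂ z ≠ 0 := by
      intro h
      have h1 : (c₁ z / c₂ z) ^ p = 1 := by
        rw [div_pow, hpow z hzW, div_self (pow_ne_zero p hz0)]
      rw [h, zero_pow hp] at h1
      exact zero_ne_one h1
    have hd0 : deriv (fun z => c₁ z / c₂ z) z = 0 := by
      rcases mul_eq_zero.mp hzero with h | h
      · rcases mul_eq_zero.mp h with h | h
        · exact absurd h hpc
        · exact absurd h (pow_ne_zero _ hqne)
      · exact h
    have := hd.hasDerivAt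
    rwa [hd0] at this
  have hconst : ∀ z ∈ ball z₀ ε, c₁ z / c₂ z = c₁ z₀ / c₂ z₀ := by
    intro z hz
    exact isOpen_ball.is_const_of_deriv_eq_zero (convex_ball z₀ ε).isPreconnected
      (fun w hw => (hq w hw).differentiableAt.differentiableWithinAt)
      (fun w hw => (hq w hw).deriv) hz (mem_ball_self hε)
  filter_upwards [isOpen_ball.mem_nhds (mem_ball_self hε)] with z hz
  obtain ⟨hzW, hz0⟩ := hball z hz
  have h := hconst z hz
  rw [heq, div_self h0, div_eq_one_iff_eq hz0] at h
  exact h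

end Fermat.Agent.S42x.Root.H9
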