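import Fermat.Agent.S42x.Root.H9_Disc

/-!
# W7 (B2') [ROOT] (helper9), part 2: holomorphic `p`-th roots on the upper half plane

* `h9_exists_disc`  : any two points of the upper half plane lie in an open disc whose closure
  is contained in the upper half plane;
* `h9_root_upper`   : an analytic function on the upper half plane, not identically zero, all of
  whose orders of vanishing are divisible by `p`, has an analytic `p`-th root.
-/

set_option autoImplicit false
set_option linter.unusedSectionVars false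

open Metric Set Filter Function Topology

namespace Fermat.Agent.S42x.Root.H9

/-- Any two points of the upper half plane lie in an open disc whose closure is contained in
the upper half plane. -/
theorem h9_exists_disc (z₁ z₂ : ℂ) (h₁ : 0 < z₁.im) (h₂ : 0 < z₂.im) :
    ∃ (c₀ : ℂ) (r : ℝ), z₁ ∈ ball c₀ r ∧ z₂ ∈ ball c₀ r ∧
      closedBall c₀ r ⊆ {w : ℂ | 0 < w.im} := by
  set ε : ℝ := min z₁.im z₂.im / 2 with hε
  have hε0 : 0 < ε := by
    have : 0 < min z₁.im z₂.im := lt_min h₁ h₂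
    positivity
  have hε1 : 2 * ε ≤ z₁.im := by
    have : min z₁.im z₂.im ≤ z₁.im := min_le_left _ _
    rw [hε]; linarith
  have hε2 : 2 * ε ≤ z₂.im := by
    have : min z₁.im z₂.im ≤ z₂.im := min_le_right _ _
    rw [hε]; linarith
  set a : ℝ := (z₂.re - z₁.re) ^ 2 with ha
  have ha0 : 0 ≤ a := sq_nonneg _
  set t : ℝ := a / ε with ht
  have ht0 : 0 ≤ t := div_nonneg ha0 hε0.le
  have hta : ε * t = a := by rw [ht]; field_simp
  set R : ℝ := z₁.im + z₂.im + t + 1 with hR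
  have hr0 : 0 < R - ε := by rw [hR]; linarith
  refine ⟨⟨z₁.re, R⟩, R - ε, ?_, ?_, ?_⟩
  · rw [mem_ball, Complex.dist_eq]
    refine lt_of_pow_lt_pow_left₀ 2 hr0.le ?_
    rw [Complex.sq_norm, Complex.normSq_apply]
    simp only [Complex.sub_re, Complex.sub_im]
    nlinarith [mul_pos hε0 hε0, mul_nonneg hε0.le ht0]
  · rw [mem_ball, Complex.dist_eq]
    refine lt_of_pow_lt_pow_left₀ 2 hr0.le ?_
    rw [Complex.sq_norm, Complex.normSq_apply]
    simp only [Complex.sub_re, Complex.sub_im]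
    have h3 : (z₂.re - z₁.re) * (z₂.re - z₁.re) = ε * t := by rw [hta, ha]; ring
    rw [h3]
    have h4 : 0 < z₂.im - ε := by linarith
    have h5 : ε ≤ z₂.im - ε := by linarith
    have h6 : 0 < 2 * R - z₂.im - ε - 2 * t := by rw [hR]; linarith
    nlinarith [mul_pos h4 h6, mul_nonneg (sub_nonneg.mpr h5) ht0]
  · intro w hw
    rw [mem_closedBall, Complex.dist_eq] at hw
    have h3 := (Complex.abs_im_le_norm (w - ⟨z₁.re, R⟩)).trans hw
    simp only [Complex.sub_im] at h3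
    have h4 := (abs_le.mp h3).1
    show 0 < w.im
    linarith

/-- The upper half plane as a subset of `ℂ` is preconnected. -/
theorem h9_isPreconnected_upper : IsPreconnected {w : ℂ | 0 < w.im} :=
  (Complex.isConnected_of_upperHalfPlane subset_rfl (by grind)).isPreconnected

/-- Normalised roots on discs: for every point `z` of the upper half plane there is a disc
containing `z` and the base point `z₀`, and a root of `f` on it with prescribed value at `z₀`. -/
theorem h9_exists_local_root (p : ℕ) (hp : p ≠ 0) (f : ℂ → ℂ)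
    (hf : AnalyticOnNhd ℂ f {z : ℂ | 0 < z.im})
    (hdiv : ∀ u : ℂ, 0 < u.im → p ∣ analyticOrderNatAt f u)
    (z₀ : ℂ) (hz₀ : 0 < z₀.im) (hfz₀ : f z₀ ≠ 0) (w₀ : ℂ) (hw₀ : w₀ ^ p = f z₀)
    (z : ℂ) (hz : 0 < z.im) :
    ∃ (c₀ : ℂ) (r : ℝ) (c : ℂ → ℂ), z₀ ∈ ball c₀ r ∧ z ∈ ball c₀ r ∧
      closedBall c₀ r ⊆ {w : ℂ | 0 < w.im} ∧ AnalyticOnNhd ℂ c (ball c₀ r) ∧
      (∀ w ∈ ball c₀ r, c w ^ p = f w) ∧ c z₀ = w₀ := by
  obtain ⟨c₀, r, h1, h2, h3⟩ := h9_exists_disc z₀ z hz₀ hz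
  have hne : ∀ u ∈ closedBall c₀ r, analyticOrderAt f u ≠ ⊤ := by
    intro u hu htop
    rw [analyticOrderAt_eq_top] at htop
    have h0 := hf.eqOn_zero_of_preconnected_of_eventuallyEq_zero h9_isPreconnected_upper
      (h3 hu) htop
    exact hfz₀ (h0 hz₀)
  obtain ⟨c, hc, hcp⟩ := h9_root_ball p hp f c₀ r (hf.mono h3) hne
    (fun u hu => hdiv u (h3 hu))
  have hw₀0 : w₀ ≠ 0 := by
    intro h
    rw [h, zero_pow hp] at hw₀
    exact hfz₀ hw₀.symm
  have hcz₀ : c z₀ ≠ 0 := by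
    intro h
    have := hcp z₀ h1
    rw [h, zero_pow hp] at this
    exact hfz₀ this.symm
  set ζ : ℂ := c z₀ / w₀ with hζ
  have hζ0 : ζ ≠ 0 := div_ne_zero hcz₀ hw₀0
  have hζp : ζ ^ p = 1 := by
    rw [hζ, div_pow, hcp z₀ h1, hw₀, div_self hfz₀]
  refine ⟨c₀, r, fun w => c w / ζ, h1, h2, h3, fun w hw => (hc w hw).div analyticAt_const hζ0,
    fun w hw => ?_, ?_⟩
  · rw [div_pow, hζp, div_one, hcp w hw]
  · show c z₀ / ζ = w₀
    rw [hζ, div_div_cancel₀ hcz₀]

/-- **Roots on the upper half plane.** An analytic function on the upper half plane which is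
not identically zero and all of whose orders of vanishing are divisible by `p` has an analytic
`p`-th root. -/
theorem h9_root_upper (p : ℕ) (hp : p ≠ 0) (f : ℂ → ℂ)
    (hf : AnalyticOnNhd ℂ f {z : ℂ | 0 < z.im})
    (hne : ∃ z : ℂ, 0 < z.im ∧ f z ≠ 0)
    (hdiv : ∀ u : ℂ, 0 < u.im → p ∣ analyticOrderNatAt f u) :
    ∃ c : ℂ → ℂ, AnalyticOnNhd ℂ c {z : ℂ | 0 < z.im} ∧ ∀ z : ℂ, 0 < z.im → c z ^ p = f z := by
  classical
  obtain ⟨z₀, hz₀, hfz₀⟩ := hne
  have hpc : (p : ℂ) ≠ 0 := Nat.cast_ne_zero.mpr hp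
  set w₀ : ℂ := Complex.exp (Complex.log (f z₀) / p) with hw₀def
  have hw₀ : w₀ ^ p = f z₀ := by
    rw [hw₀def, ← Complex.exp_nat_mul, mul_div_cancel₀ _ hpc, Complex.exp_log hfz₀]
  have hw₀0 : w₀ ≠ 0 := Complex.exp_ne_zero _
  choose! c₀ r c h1 h2 h3 h4 h5 h6 using
    fun (z : ℂ) (hz : 0 < z.im) => h9_exists_local_root p hp f hf hdiv z₀ hz₀ hfz₀ w₀ hw₀ z hz
  -- the local roots agree on overlaps
  have hagree : ∀ z z' : ℂ, 0 < z.im → 0 < z'.im → z' ∈ ball (c₀ z) (r z) →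
      c z' z' = c z z' := by
    intro z z' hz hz' hmem
    have hW : IsOpen (ball (c₀ z') (r z') ∩ ball (c₀ z) (r z)) := isOpen_ball.inter isOpen_ball
    have hWc : IsPreconnected (ball (c₀ z') (r z') ∩ ball (c₀ z) (r z)) :=
      ((convex_ball _ _).inter (convex_ball _ _)).isPreconnected
    refine h9_root_unique p hp _ hW hWc (c z') (c z)
      ((h4 z' hz').mono inter_subset_left) ((h4 z hz).mono inter_subset_right)
      (fun w hw => by rw [h5 z' hz' w hw.1, h5 z hz w hw.2]) z₀ ⟨h1 z' hz', h1 z hz⟩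
      (by rw [h6 z hz]; exact hw₀0) (by rw [h6 z' hz', h6 z hz]) ⟨h2 z' hz', hmem⟩
  refine ⟨fun z => c z z, ?_, fun z hz => h5 z hz z (h2 z hz)⟩
  intro z hz
  have hev : (fun z' => c z' z') =ᶠ[𝓝 z] c z := by
    filter_upwards [isOpen_ball.mem_nhds (h2 z hz)] with z' hz'
    exact hagree z z' hz (h3 z hz (ball_subset_closedBall hz')) hz'
  exact (h4 z hz z (h2 z hz)).congr hev.symm

end Fermat.Agent.S42x.Root.H9
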