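import Fermat.Agent.S42x.Root.H9_Char
import Fermat.Agent.S24.H21_Iota

/-!
# W7 (B2') [ROOT] (helper9), part 5: an invariant `p`-th root of a modular function is modular

* `h9_holH_of_pow`        : an element of `MerH` whose `p`-th power is holomorphic is holomorphic;
* `h9_uniform_growth`     : for a `Γ₀(N)`-invariant function the growth exponent can be chosen
  uniformly over all translates;
* `h9_growth_of_pow`      : a `p`-th root of a function of moderate growth has moderate growth;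
* `h9_invariant_root_mem_of` : **(R7)** a `Γ₀(N)`-invariant `y : MerH` with `y ^ p ∈ ι F_ℂ` lies in
  `ι F_ℂ`, from the membership criterion `H9F1 N` (holomorphic, invariant, moderate growth
  implies membership in the function field).
-/

set_option autoImplicit false
set_option linter.unusedSectionVars false

open UpperHalfPlane CongruenceSubgroup
open scoped Manifold MatrixGroups Topology
open Fermat.Agent.S24.Mer Fermat.Agent.S24.Real

namespace Fermat.Agent.S42x.Root.H9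

/-- The membership criterion (helper21's (F1)): a holomorphic `Γ₀(N)`-invariant function all of
whose translates are `Δ ^ n`-bounded at `i∞` lies in the function field. -/
def H9F1 (N : ℕ) : Prop :=
  ∀ F₀ : HolH, (∀ γ : SL(2, ℤ), γ ∈ Gamma0 N → ∀ z : ℍ, F₀.1 (γ • z) = F₀.1 z) →
    ∀ n : ℕ, (∀ γ : SL(2, ℤ),
      IsBoundedAtImInfty (fun z => F₀.1 (γ • z) * ModularForm.discriminant z ^ n)) →
    ∃ h : FK ℂ N, iota (RingHom.id ℂ) h = algebraMap HolH MerH F₀

/-- An element of `MerH` whose `p`-th power is holomorphic is holomorphic. -/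
theorem h9_holH_of_pow (p : ℕ) (hp : p ≠ 0) (c : MerH) (h : HolH)
    (hc : c ^ p = algebraMap HolH MerH h) : ∃ c₀ : HolH, algebraMap HolH MerH c₀ = c := by
  by_cases hc0 : c = 0
  · exact ⟨0, by rw [hc0, map_zero]⟩
  have hh : h ≠ 0 := by
    rintro rfl
    rw [map_zero] at hc
    exact hc0 (pow_eq_zero_iff hp |>.mp hc)
  have hdiv : ∀ z : ℍ, p ∣ ordN z h := by
    intro z
    have h1 : ordE z (c ^ p) = p * ordE z c := ordE_pow z c p
    rw [hc, ordE_algebraMap] at h1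
    have h2 : (p : ℤ) ∣ (ordN z h : ℤ) := ⟨ordE z c, h1⟩
    exact Int.natCast_dvd_natCast.mp h2
  obtain ⟨c', hc'⟩ := h9_root_holH p hp h hh hdiv
  have hc'0 : c' ≠ 0 := by
    rintro rfl
    rw [zero_pow hp] at hc'
    exact hh hc'.symm
  have hc'E : algebraMap HolH MerH c' ≠ 0 := algebraMap_MerH_ne_zero hc'0
  obtain ⟨ω, -, hω⟩ := h9_const_of_pow_eq_one p hp (c / algebraMap HolH MerH c') (by
    rw [div_pow, hc, ← map_pow, hc', div_self (algebraMap_MerH_ne_zero hh)])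
  refine ⟨constH ω * c', ?_⟩
  rw [map_mul, ← h9constE_apply, ← hω, div_mul_cancel₀ _ hc'E]

/-- For a `Γ₀(N)`-invariant function the growth exponent can be chosen uniformly. -/
theorem h9_uniform_growth (N : ℕ) [NeZero N] (F : ℍ → ℂ)
    (hinv : ∀ γ : SL(2, ℤ), γ ∈ Gamma0 N → ∀ z : ℍ, F (γ • z) = F z)
    (hg : ∀ γ : SL(2, ℤ), ∃ m : ℕ,
      IsBoundedAtImInfty (fun z : ℍ => F (γ • z) * ModularForm.discriminant z ^ m)) :
    ∃ n : ℕ, ∀ γ : SL(2, ℤ),
      IsBoundedAtImInfty (fun z : ℍ => F (γ • z) * ModularForm.discriminant z ^ n) := by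
  classical
  choose m hm using hg
  have : Finite (SL(2, ℤ) ⧸ Gamma0 N) := Subgroup.finite_quotient_of_finiteIndex
  have : Fintype (SL(2, ℤ) ⧸ Gamma0 N) := Fintype.ofFinite _
  refine ⟨Finset.univ.sup (fun k : SL(2, ℤ) ⧸ Gamma0 N => m (Quotient.out k)⁻¹), fun γ => ?_⟩
  obtain ⟨h, hh⟩ := QuotientGroup.mk_out_eq_mul (Gamma0 N) γ⁻¹
  have hle : m (Quotient.out (QuotientGroup.mk γ⁻¹ : SL(2, ℤ) ⧸ Gamma0 N))⁻¹ ≤
      Finset.univ.sup (fun k : SL(2, ℤ) ⧸ Gamma0 N => m (Quotient.out k)⁻¹) :=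
    Finset.le_sup (f := fun k : SL(2, ℤ) ⧸ Gamma0 N => m (Quotient.out k)⁻¹)
      (Finset.mem_univ _)
  have hb := hm (Quotient.out (QuotientGroup.mk γ⁻¹ : SL(2, ℤ) ⧸ Gamma0 N))⁻¹
  have hfun : (fun z : ℍ => F ((Quotient.out (QuotientGroup.mk γ⁻¹ : SL(2, ℤ) ⧸ Gamma0 N))⁻¹ • z))
      = fun z : ℍ => F (γ • z) := by
    funext z
    rw [hh, mul_inv_rev, inv_inv, mul_smul]
    exact hinv _ (inv_mem h.2) _
  have hb' : IsBoundedAtImInfty (fun z : ℍ => F (γ • z) * ModularForm.discriminant z ^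
      m (Quotient.out (QuotientGroup.mk γ⁻¹ : SL(2, ℤ) ⧸ Gamma0 N))⁻¹) := by
    have := congrFun hfun
    simpa only [this] using hb
  exact ModGrowth.mono hle hb'

/-- A `p`-th root of a function of moderate growth has moderate growth (same exponent). -/
theorem h9_growth_of_pow (p : ℕ) (hp : p ≠ 0) (F H : ℍ → ℂ) (hFH : ∀ z, F z ^ p = H z) (m : ℕ)
    (hH : IsBoundedAtImInfty (fun z : ℍ => H z * ModularForm.discriminant z ^ m)) :
    IsBoundedAtImInfty (fun z : ℍ => F z * ModularForm.discriminant z ^ m) := by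
  obtain ⟨M, A, hMA⟩ := isBoundedAtImInfty_iff.mp hH
  obtain ⟨M', A', hMA'⟩ := isBoundedAtImInfty_iff.mp (isBoundedAtImInfty_discriminant_pow m)
  refine isBoundedAtImInfty_iff.mpr ⟨max 1 (M * M' ^ (p - 1)), max A A', fun z hz => ?_⟩
  have h1 := hMA z (le_trans (le_max_left _ _) hz)
  have h2 := hMA' z (le_trans (le_max_right _ _) hz)
  set x := ‖F z * ModularForm.discriminant z ^ m‖ with hx
  have hx0 : 0 ≤ x := norm_nonneg _
  have hM'0 : 0 ≤ M' := le_trans (norm_nonneg _) h2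
  have hxp : x ^ p ≤ M * M' ^ (p - 1) := by
    have e : x ^ p = ‖H z * ModularForm.discriminant z ^ m‖ *
        ‖ModularForm.discriminant z ^ m‖ ^ (p - 1) := by
      rw [hx, ← norm_pow, ← norm_pow, ← norm_mul]
      congr 1
      rw [mul_pow, hFH z]
      obtain ⟨k, rfl⟩ := Nat.exists_eq_succ_of_ne_zero hp
      rw [Nat.succ_sub_one, pow_succ (ModularForm.discriminant z ^ m) k]
      ring
    rw [e]
    exact mul_le_mul h1 (pow_le_pow_left₀ (norm_nonneg _) h2 _) (pow_nonneg (norm_nonneg _) _)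
      (le_trans (norm_nonneg _) h1)
  by_cases hx1 : x ≤ 1
  · exact le_trans hx1 (le_max_left _ _)
  · have hx1' : 1 ≤ x := (not_le.mp hx1).le
    have : x ≤ x ^ p := le_self_pow₀ hx1' hp
    exact le_trans (le_trans this hxp) (le_max_right _ _)

/-- **(R7)** a `Γ₀(N)`-invariant `p`-th root in `MerH` of a modular function is a modular
function (given the membership criterion `H9F1 N`). -/
theorem h9_invariant_root_mem_of (N : ℕ) [NeZero N] (hF1 : H9F1 N) (p : ℕ) (hp : p ≠ 0)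
    (f : FK ℂ N) (y : MerH) (hyf : y ^ p = iota (RingHom.id ℂ) f)
    (hinv : ∀ γ ∈ Gamma0 N, tauE γ y = y) : ∃ h : FK ℂ N, iota (RingHom.id ℂ) h = y := by
  obtain ⟨a, b, hb, hab⟩ := exists_frac f
  have hbH : rhoH (RingHom.id ℂ) b ≠ 0 := rhoH_ne_zero _ hb
  have hbE : algebraMap HolH MerH (rhoH (RingHom.id ℂ) b) ≠ 0 := algebraMap_MerH_ne_zero hbH
  -- the holomorphic function `c = b y`
  have hcp : (algebraMap HolH MerH (rhoH (RingHom.id ℂ) b) * y) ^ p =
      algebraMap HolH MerH (rhoH (RingHom.id ℂ) (a * b ^ (p - 1))) := by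
    rw [mul_pow, hyf, iota_eq_div _ f a b hb hab, map_mul, map_mul, map_pow, map_pow]
    obtain ⟨k, rfl⟩ := Nat.exists_eq_succ_of_ne_zero hp
    rw [Nat.succ_sub_one, pow_succ]
    field_simp
  obtain ⟨c₀, hc₀⟩ := h9_holH_of_pow p hp _ _ hcp
  -- invariance
  have hc₀inv : ∀ γ : SL(2, ℤ), γ ∈ Gamma0 N → ∀ z : ℍ, c₀.1 (γ • z) = c₀.1 z := by
    intro γ hγ z
    have h1 : tauE γ⁻¹ (algebraMap HolH MerH c₀) = algebraMap HolH MerH c₀ := by
      rw [hc₀, map_mul, hinv _ (inv_mem hγ), tauE_algebraMap,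
        tau_rhoH_of_mem _ (inv_mem hγ)]
    rw [tauE_algebraMap] at h1
    have h2 := algebraMap_MerH_injective h1
    have h3 := congrFun (congrArg Subtype.val h2) z
    rw [tau_apply, inv_inv] at h3
    exact h3
  -- pointwise `p`-th power
  have hpow : ∀ z : ℍ, c₀.1 z ^ p = rho (RingHom.id ℂ) (a * b ^ (p - 1)) z := by
    intro z
    have h1 : algebraMap HolH MerH (c₀ ^ p) =
        algebraMap HolH MerH (rhoH (RingHom.id ℂ) (a * b ^ (p - 1))) := by
      rw [map_pow, hc₀, hcp]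
    have h2 := algebraMap_MerH_injective h1
    have h3 := congrFun (congrArg Subtype.val h2) z
    simpa using h3
  -- growth
  have hg : ∀ γ : SL(2, ℤ), ∃ m : ℕ,
      IsBoundedAtImInfty (fun z : ℍ => c₀.1 (γ • z) * ModularForm.discriminant z ^ m) := by
    intro γ
    obtain ⟨m, hm⟩ := rho_modGrowth (RingHom.id ℂ) (a * b ^ (p - 1)) γ
    exact ⟨m, h9_growth_of_pow p hp (fun z => c₀.1 (γ • z))
      (fun z => rho (RingHom.id ℂ) (a * b ^ (p - 1)) (γ • z)) (fun z => hpow (γ • z)) m hm⟩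
  obtain ⟨n, hn⟩ := h9_uniform_growth N c₀.1 hc₀inv hg
  obtain ⟨h₁, hh₁⟩ := hF1 c₀ hc₀inv n hn
  refine ⟨h₁ / inclAK ℂ N b, ?_⟩
  rw [map_div₀, hh₁, hc₀, iota_incl, mul_div_assoc, mul_comm, div_mul_cancel₀ _ hbE]

end Fermat.Agent.S42x.Root.H9
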