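import Fermat.Agent.S42x.Root.H9_Half
import Fermat.Agent.S24.H21_MerOrd

/-!
# W7 (B2') [ROOT] (helper9), part 3: `p`-th roots in `HolH` and `MerH`

* `h9_root_holH` : a nonzero holomorphic function on `ℍ` all of whose orders of vanishing are
  divisible by `p` is a `p`-th power in `HolH`;
* `h9_root_merH` : a nonzero meromorphic function on `ℍ` all of whose orders are divisible by
  `p` is a `p`-th power in `MerH`.
-/

set_option autoImplicit false
set_option linter.unusedSectionVars false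

open UpperHalfPlane
open scoped Manifold MatrixGroups Topology
open Fermat.Agent.S24.Mer

namespace Fermat.Agent.S42x.Root.H9

/-- **(R1)** roots of holomorphic functions on `ℍ`. -/
theorem h9_root_holH (p : ℕ) (hp : p ≠ 0) (h : HolH) (hh : h ≠ 0)
    (hdiv : ∀ z : ℍ, p ∣ ordN z h) : ∃ c : HolH, c ^ p = h := by
  have hf : AnalyticOnNhd ℂ ((h : ℍ → ℂ) ∘ ofComplex) {z : ℂ | 0 < z.im} :=
    (UpperHalfPlane.mdifferentiable_iff.mp h.2).analyticOnNhd isOpen_upperHalfPlaneSet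
  have hne : ∃ z : ℂ, 0 < z.im ∧ ((h : ℍ → ℂ) ∘ ofComplex) z ≠ 0 := by
    by_contra hcon
    apply hh
    apply Subtype.ext
    funext τ
    by_contra h0
    exact hcon ⟨(τ : ℂ), τ.im_pos, by simpa using h0⟩
  obtain ⟨C, hC, hCp⟩ := h9_root_upper p hp _ hf hne
    (fun u hu => hdiv ⟨u, hu⟩)
  have hmd : MDifferentiable 𝓘(ℂ) 𝓘(ℂ) (fun τ : ℍ => C (τ : ℂ)) := by
    rw [UpperHalfPlane.mdifferentiable_iff]
    refine hC.differentiableOn.congr fun z hz => ?_
    show C ((ofComplex z : ℍ) : ℂ) = C z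
    rw [ofComplex_apply_of_im_pos hz]
  refine ⟨⟨fun τ : ℍ => C (τ : ℂ), hmd⟩, ?_⟩
  apply Subtype.ext
  funext τ
  show C (τ : ℂ) ^ p = (h : ℍ → ℂ) τ
  rw [hCp (τ : ℂ) τ.im_pos]
  simp

/-- **(R2)** roots of meromorphic functions on `ℍ`. -/
theorem h9_root_merH (p : ℕ) (hp : p ≠ 0) (x : MerH) (hx : x ≠ 0)
    (hdiv : ∀ z : ℍ, (p : ℤ) ∣ ordE z x) : ∃ y : MerH, y ^ p = x := by
  obtain ⟨a, b, ha, hb, rfl⟩ := exists_rep hx
  have ha' := algebraMap_MerH_ne_zero ha
  have hb' := algebraMap_MerH_ne_zero hb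
  obtain ⟨n, rfl⟩ : ∃ n, p = n + 1 := Nat.exists_eq_succ_of_ne_zero hp
  have hab : a * b ^ n ≠ 0 := mul_ne_zero ha (pow_ne_zero n hb)
  have hdiv' : ∀ z : ℍ, (n + 1) ∣ ordN z (a * b ^ n) := by
    intro z
    have h1 : ordE z (algebraMap HolH MerH (a * b ^ n)) =
        ordE z (algebraMap HolH MerH a / algebraMap HolH MerH b) +
          ((n + 1 : ℕ) : ℤ) * ordE z (algebraMap HolH MerH b) := by
      rw [map_mul, map_pow, ordE_mul z ha' (pow_ne_zero n hb'), ordE_pow,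
        ordE_div' z ha' hb']
      push_cast
      ring
    rw [ordE_algebraMap] at h1
    have h2 : ((n + 1 : ℕ) : ℤ) ∣ (ordN z (a * b ^ n) : ℤ) := by
      rw [h1]
      exact dvd_add (hdiv z) (dvd_mul_right _ _)
    exact Int.natCast_dvd_natCast.mp h2
  obtain ⟨c, hc⟩ := h9_root_holH (n + 1) hp (a * b ^ n) hab hdiv'
  refine ⟨algebraMap HolH MerH c / algebraMap HolH MerH b, ?_⟩
  rw [div_pow, ← map_pow, hc, map_mul, map_pow, pow_succ]
  field_simp

end Fermat.Agent.S42x.Root.H9
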